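/-
P-SS row 941 (SSH-8a CUSP-RHO), helper46: PURE ALGEBRA.

For `Φ = Σ_k φ_k Y^k ∈ ℤ[X][Y]` monic of degree `n` with `deg φ_k ≤ q (n - k)` the reflected
polynomial `G = Σ_k reflect (q (n - k)) φ_k · Y^k` is monic and
`G(x⁻¹, x⁻¹ ^ q · y) = x⁻¹ ^ (q n) · Φ(x, y)` in every field.
-/
import Mathlib

set_option autoImplicit false

noncomputable section

open Polynomial

namespace Fermat.Agent.H46.SS

/-- The reflected polynomial `G = Σ_{k ≤ n} reflect (q (n - k)) φ_k · Y^k`. -/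
def reflG (q n : ℕ) (Φ : Polynomial (Polynomial ℤ)) : Polynomial (Polynomial ℤ) :=
  ∑ k ∈ Finset.range (n + 1), C (reflect (q * (n - k)) (Φ.coeff k)) * X ^ k

theorem reflG_natDegree_le (q n : ℕ) (Φ : Polynomial (Polynomial ℤ)) :
    (reflG q n Φ).natDegree ≤ n := by
  unfold reflG
  refine natDegree_sum_le_of_forall_le _ _ fun k hk => ?_
  exact (natDegree_C_mul_X_pow_le _ _).trans (Nat.lt_succ_iff.mp (Finset.mem_range.mp hk))

theorem reflG_coeff_top (q n : ℕ) (Φ : Polynomial (Polynomial ℤ)) :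
    (reflG q n Φ).coeff n = reflect 0 (Φ.coeff n) := by
  unfold reflG
  rw [finsetSum_coeff, Finset.sum_eq_single n]
  · rw [coeff_C_mul_X_pow, if_pos rfl, Nat.sub_self, Nat.mul_zero]
  · intro k _ hkn
    rw [coeff_C_mul_X_pow, if_neg (fun h => hkn h.symm)]
  · intro h
    exact absurd (Finset.mem_range.mpr (Nat.lt_succ_self n)) h

theorem reflG_monic (q n : ℕ) (Φ : Polynomial (Polynomial ℤ)) (hm : Φ.Monic)
    (hn : Φ.natDegree = n) : (reflG q n Φ).Monic := by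
  refine monic_of_natDegree_le_of_coeff_eq_one n (reflG_natDegree_le q n Φ) ?_
  have h1 : Φ.coeff n = 1 := by
    rw [← hn]
    exact hm.coeff_natDegree
  rw [reflG_coeff_top, h1]
  simp

section eval

variable {F : Type*} [Field F]

theorem eval₂_reflect_inv (x : F) (hx : x ≠ 0) (N : ℕ) (f : Polynomial ℤ)
    (hf : f.natDegree ≤ N) :
    eval₂ (Int.castRingHom F) x⁻¹ (reflect N f) = eval₂ (Int.castRingHom F) x f * x⁻¹ ^ N := by
  let _ : Invertible x := invertibleOfNonzero hx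
  have h := eval₂_reflect_mul_pow (Int.castRingHom F) x N f hf
  rw [invOf_eq_inv] at h
  rw [← h, mul_assoc, ← mul_pow, mul_inv_cancel₀ hx, one_pow, mul_one]

/-- `G(x⁻¹, x⁻¹ ^ q · y) = x⁻¹ ^ (q n) · Φ(x, y)`. -/
theorem reflG_eval (q n : ℕ) (Φ : Polynomial (Polynomial ℤ)) (hn : Φ.natDegree ≤ n)
    (hdeg : ∀ k ≤ n, (Φ.coeff k).natDegree ≤ q * (n - k)) (x y : F) (hx : x ≠ 0) :
    (reflG q n Φ).eval₂ (eval₂RingHom (Int.castRingHom F) x⁻¹) (x⁻¹ ^ q * y)
      = x⁻¹ ^ (q * n) * Φ.eval₂ (eval₂RingHom (Int.castRingHom F) x) y := by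
  rw [eval₂_eq_sum_range' (eval₂RingHom (Int.castRingHom F) x) (Nat.lt_succ_of_le hn) y,
    Finset.mul_sum]
  unfold reflG
  rw [eval₂_finsetSum]
  refine Finset.sum_congr rfl fun k hk => ?_
  have hk' : k ≤ n := Nat.lt_succ_iff.mp (Finset.mem_range.mp hk)
  rw [eval₂_mul, eval₂_C, eval₂_pow, eval₂_X, coe_eval₂RingHom, coe_eval₂RingHom,
    eval₂_reflect_inv x hx _ _ (hdeg k hk'), mul_pow, ← pow_mul]
  have hsplit : x⁻¹ ^ (q * n) = x⁻¹ ^ (q * (n - k)) * x⁻¹ ^ (q * k) := by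
    rw [← pow_add, ← Nat.mul_add, Nat.sub_add_cancel hk']
  rw [hsplit]
  ring

end eval

end Fermat.Agent.H46.SS
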