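/-
P-SS row 941 (SSH-8a CUSP-RHO), helper46: `ModelCuspRhoStatement M q` for `q` prime.

`ρ = j(t^q) / j(t)^q` is integral over `A₀[1/j]`: it is a root of the monic polynomial
`G = Σ_k reflect (q (q + 1 - k)) φ_k · Y^k ∈ ℤ[X][Y]` evaluated at `X = 1/j`, where
`Φ = Σ_k φ_k Y^k` is the modular polynomial of level `q`
(`G(1/j, ρ) = j^(-q (q + 1)) Φ(j, j(t^q)) = 0`).
-/
import Mathlib
import Fermat.Agent.H67.SS.CuspInterfaces
import Fermat.Agent.H46.SS.ReflG
import Fermat.Agent.H46.SS.PoleBound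
import Fermat.Agent.H27.KLGB.Integral
import Fermat.Agent.H87.KL.KumGauss
import Fermat.Prelude.Thm_ModularCurve_coeff_jqModC_neg_one

set_option autoImplicit false

noncomputable section

open Polynomial ModularCurve AlgebraicCurve

namespace Fermat.Agent.H46.SS

open Fermat.Agent.H27 Fermat.Agent.H22.KL Fermat.Agent.H87.KL

section poly

variable (q : ℕ) [NeZero q]

/-- The modular polynomial of level `q` together with its degree bounds and the modular
equation over `ℤ`. -/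
theorem exists_modPoly_bounded (hq : q.Prime) :
    ∃ Φ : Polynomial (Polynomial ℤ), Φ.Monic ∧ Φ.natDegree = q + 1 ∧
      (∀ k ≤ q + 1, (Φ.coeff k).natDegree ≤ q * (q + 1 - k)) ∧
      (Φ.map (evalAt (jqModC ℤ))).eval (qExpand ℤ q (jqModC ℤ)) = 0 := by
  have hqC : (q : ℂ) ≠ 0 := Nat.cast_ne_zero.mpr hq.ne_zero
  obtain ⟨ζ, hζ⟩ := Fermat.Agent.H89.exists_primitive_root_unit' ℂ q hqC
  obtain ⟨D⟩ := Fermat.Agent.H17.hasHeckeData_complex q hq ζ hζ
  refine ⟨D.Φ, D.Φ_monic, D.Φ_natDegree, fun k hk => natDegree_coeff_le q ζ D k hk, ?_⟩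
  have hinj : Function.Injective (coeffMap (Int.castRingHom ℂ)) :=
    Fermat.Agent.H67.coeffMap_injective_of_injective _ (RingHom.injective_int _)
  apply hinj
  rw [map_zero, Fermat.Agent.H67.coeffMap_eval_L, coeffMap_qExpand, coeffMap_jqModC]
  exact Fermat.Agent.H89.hecke_Φ_eval_jq q ζ D

/-- **The cusp polynomial**: a monic `G ∈ ℤ[X][Y]` with `G(1/j, j(t^q)/j^q) = 0` over every
field. -/
theorem exists_cuspPoly (hq : q.Prime) :
    ∃ G : Polynomial (Polynomial ℤ), G.Monic ∧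
      ∀ (K : Type) [Field K],
        G.eval₂ (eval₂RingHom (Int.castRingHom (LaurentSeries K)) (jqModC K)⁻¹)
          ((jqModC K)⁻¹ ^ q * qExpand K q (jqModC K)) = 0 := by
  obtain ⟨Φ, hm, hn, hdeg, heq⟩ := exists_modPoly_bounded q hq
  refine ⟨reflG q (q + 1) Φ, reflG_monic q (q + 1) Φ hm hn, ?_⟩
  intro K _
  have hx : jqModC K ≠ 0 := by
    intro h0
    have h1 := coeff_jqModC_neg_one K
    rw [h0, HahnSeries.coeff_zero] at h1
    exact zero_ne_one h1
  rw [reflG_eval q (q + 1) Φ hn.le hdeg (jqModC K) (qExpand K q (jqModC K)) hx]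
  have h2 := Fermat.Agent.H27.KLGB.modularEquation_map (R := K) q Φ heq
  rw [← eval₂_eq_eval_map] at h2
  have h3 : Φ.eval₂ (eval₂RingHom (Int.castRingHom (LaurentSeries K)) (jqModC K))
      (qExpand K q (jqModC K)) = 0 := h2
  rw [h3, mul_zero]

end poly

/-- **CUSP-RHO** (row 941): `ρ = x⁻¹ ^ q * x_q` is integral over `A₀[x⁻¹]`. -/
theorem modelCuspRho (M q : ℕ) [NeZero M] [NeZero q] (hq : q.Prime) :
    Fermat.Agent.H67.SS.ModelCuspRhoStatement M q := by
  intro K₁ _ _ _ A₀ _ _ _ _ _ _ _ x xq hx hxq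
  obtain ⟨G, hGm, hG⟩ := exists_cuspPoly q hq
  rw [Fermat.Agent.H87.KL.mem_chartClosure_iff]
  set j : ModelField K₁ (M * q) →+* LaurentSeries K₁ :=
    algebraMap (ModelField K₁ (M * q)) (LaurentSeries K₁) with hj
  have hjinj : Function.Injective j := FaithfulSMul.algebraMap_injective _ _
  have hcE : coeffEmb K₁ jq = jqModC K₁ := by
    rw [coeffEmb, ← jqModC_rat, coeffMap_jqModC]
  have hjx : j x = jqModC K₁ := by
    rw [← hcE, ← hx]
    rfl
  have hjxq : j xq = qExpand K₁ q (jqModC K₁) := by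
    rw [← hcE, ← hxq]
    rfl
  refine ⟨G.map (Polynomial.mapRingHom (Int.castRingHom A₀)), hGm.map _, ?_⟩
  apply hjinj
  rw [map_zero, Polynomial.hom_eval₂, Polynomial.eval₂_map]
  have hcomp : (j.comp (evX (A := A₀) x⁻¹)).comp (Polynomial.mapRingHom (Int.castRingHom A₀))
      = eval₂RingHom (Int.castRingHom (LaurentSeries K₁)) (jqModC K₁)⁻¹ := by
    apply Polynomial.ringHom_ext
    · intro a
      simp [evX]
    · simp [evX, hjx]
  rw [hcomp, map_mul, map_pow, map_inv₀, hjx, hjxq]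
  exact hG K₁

end Fermat.Agent.H46.SS
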