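/-
P-SS row 941 (SSH-8a CUSP-RHO), helper46: DEGREE BOUNDS FOR THE MODULAR POLYNOMIAL.

For Hecke data `D` of prime level `q` over a field of characteristic zero, `Φ = Σ_k φ_k Y^k`:
`natDegree φ_k ≤ q (q + 1 - k)`  (`natDegree_coeff_le`).

Proof: over the base `J = j(t^q)` the roots of `Φ(J, Y)` are `j(t^(q²))` and `j(ζ^b t)`; they have
no coefficients in degrees `< -q²`, so the coefficient `φ_k(J)` of `Y^k` has none in degrees
`< -q² (q + 1 - k)`; but `φ_k(J)` has the nonzero coefficient `lc φ_k` in degree `-q deg φ_k`.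
-/
import Mathlib
import Fermat.Agent.H27.Igusa.Defs
import Fermat.Agent.H27.Igusa.Track
import Fermat.Agent.H74.IgusaPolyJ
import Fermat.Agent.H42.Kronecker
import Fermat.Prelude.Thm_ModularCurve_coeff_jqModC_pow_of_lt

set_option autoImplicit false

noncomputable section

open Polynomial ModularCurve

namespace Fermat.Agent.H46.SS

open Fermat.Agent.H27

/-! ### Pole orders -/

section pole

variable {R : Type*} [CommRing R]

/-- `f` has a pole of order at most `m` at `t = 0`: no coefficients in degrees `< -m`. -/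
def PoleLE (m : ℤ) (f : LaurentSeries R) : Prop :=
  ((-m : ℤ) : WithTop ℤ) ≤ f.orderTop

theorem PoleLE.coeff {m : ℤ} {f : LaurentSeries R} (h : PoleLE m f) {n : ℤ} (hn : n < -m) :
    f.coeff n = 0 :=
  HahnSeries.coeff_eq_zero_of_lt_orderTop (lt_of_lt_of_le (WithTop.coe_lt_coe.mpr hn) h)

theorem poleLE_of_coeff {m : ℤ} {f : LaurentSeries R} (h : ∀ n : ℤ, n < -m → f.coeff n = 0) :
    PoleLE m f := by
  unfold PoleLE
  by_contra hcon
  rw [not_le] at hcon
  have hne : f.orderTop ≠ ⊤ := ne_top_of_lt hcon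
  obtain ⟨o, ho⟩ := WithTop.ne_top_iff_exists.mp hne
  rw [← ho, WithTop.coe_lt_coe] at hcon
  have hf : f ≠ 0 := fun h0 => hne (by rw [h0, HahnSeries.orderTop_zero])
  have h1 : f.coeff o ≠ 0 := by
    have h2 := HahnSeries.coeff_orderTop_ne (x := f) ho.symm
    exact h2
  exact h1 (h o hcon)

theorem poleLE_zero (m : ℤ) : PoleLE m (0 : LaurentSeries R) := by
  unfold PoleLE
  rw [HahnSeries.orderTop_zero]
  exact le_top

theorem PoleLE.mono {m m' : ℤ} {f : LaurentSeries R} (h : PoleLE m f) (hm : m ≤ m') :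
    PoleLE m' f :=
  le_trans (WithTop.coe_le_coe.mpr (neg_le_neg hm)) h

theorem PoleLE.neg {m : ℤ} {f : LaurentSeries R} (h : PoleLE m f) : PoleLE m (-f) := by
  unfold PoleLE
  rw [HahnSeries.orderTop_neg]
  exact h

theorem PoleLE.add {m : ℤ} {f g : LaurentSeries R} (hf : PoleLE m f) (hg : PoleLE m g) :
    PoleLE m (f + g) :=
  le_trans (le_min hf hg) HahnSeries.min_orderTop_le_orderTop_add

theorem PoleLE.sub {m : ℤ} {f g : LaurentSeries R} (hf : PoleLE m f) (hg : PoleLE m g) :
    PoleLE m (f - g) := by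
  rw [sub_eq_add_neg]
  exact hf.add hg.neg

theorem PoleLE.mul {a b : ℤ} {f g : LaurentSeries R} (hf : PoleLE a f) (hg : PoleLE b g) :
    PoleLE (a + b) (f * g) := by
  unfold PoleLE at *
  refine le_trans ?_ HahnSeries.orderTop_add_le_mul
  have : ((-(a + b) : ℤ) : WithTop ℤ) = ((-a : ℤ) : WithTop ℤ) + ((-b : ℤ) : WithTop ℤ) := by
    rw [← WithTop.coe_add]
    congr 1
    ring
  rw [this]
  exact add_le_add hf hg

theorem PoleLE.qExpand (q : ℕ) [NeZero q] {m : ℤ} {f : LaurentSeries R} (h : PoleLE m f) :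
    PoleLE (q * m) (qExpand R q f) := by
  apply poleLE_of_coeff
  intro n hn
  by_cases hd : (q : ℤ) ∣ n
  · obtain ⟨n', rfl⟩ := hd
    rw [qExpand_coeff_mul]
    apply h.coeff
    have hq : (0 : ℤ) < q := by exact_mod_cast Nat.pos_of_ne_zero (NeZero.ne q)
    have h1 : (q : ℤ) * n' < (q : ℤ) * (-m) := by linarith
    exact lt_of_mul_lt_mul_left h1 hq.le
  · exact qExpand_coeff_of_not_dvd q f hd

theorem poleLE_jqModC : PoleLE 1 (jqModC R) := by
  apply poleLE_of_coeff
  intro n hn
  have h := coeff_jqModC_pow_of_lt R (b := 1) (m := n) (by push_cast; exact hn)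
  rwa [pow_one] at h

end pole

section twist

variable {k : Type*} [Field k]

theorem PoleLE.twist (ζ : kˣ) {m : ℤ} {f : LaurentSeries k} (h : PoleLE m f) :
    PoleLE m (twist ζ f) := by
  apply poleLE_of_coeff
  intro n hn
  rw [twist_coeff, h.coeff hn, mul_zero]

end twist

/-! ### Coefficients of a product of linear factors -/

section prod

variable {R : Type*} [CommRing R]

theorem coeff_X_sub_C_mul_poleLE (P : Polynomial (LaurentSeries R)) (r : LaurentSeries R)
    (m N : ℤ) (hr : PoleLE m r) (hP : ∀ k : ℕ, PoleLE (m * (N - k)) (P.coeff k)) (k : ℕ) :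
    PoleLE (m * (N + 1 - k)) (((X - C r) * P).coeff k) := by
  rw [sub_mul]
  rw [coeff_sub, coeff_C_mul]
  cases k with
  | zero =>
    rw [coeff_X_mul_zero, zero_sub]
    have h := (hr.mul (hP 0)).neg
    refine h.mono ?_
    push_cast
    linarith
  | succ k =>
    rw [coeff_X_mul]
    refine PoleLE.sub ?_ ?_
    · refine (hP k).mono ?_
      push_cast
      linarith
    · refine (hr.mul (hP (k + 1))).mono ?_
      push_cast
      linarith

theorem coeff_one_poleLE (m : ℤ) (k : ℕ) :
    PoleLE (m * (0 - k)) ((1 : Polynomial (LaurentSeries R)).coeff k) := by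
  cases k with
  | zero =>
    rw [coeff_one_zero]
    apply poleLE_of_coeff
    intro n hn
    rw [HahnSeries.coeff_one, if_neg]
    intro h0
    rw [h0] at hn
    simp at hn
  | succ k =>
    rw [coeff_one, if_neg (by omega)]
    exact poleLE_zero _

theorem coeff_prod_poleLE {ι : Type*} (S : Finset ι) (r : ι → LaurentSeries R) (m : ℤ)
    (hr : ∀ i ∈ S, PoleLE m (r i)) (k : ℕ) :
    PoleLE (m * ((S.card : ℤ) - k)) ((∏ i ∈ S, (X - C (r i))).coeff k) := by
  classical
  induction S using Finset.induction_on generalizing k with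
  | empty =>
    rw [Finset.prod_empty, Finset.card_empty]
    exact coeff_one_poleLE m k
  | insert a S ha ih =>
    rw [Finset.prod_insert ha, Finset.card_insert_of_notMem ha]
    have h := coeff_X_sub_C_mul_poleLE (∏ i ∈ S, (X - C (r i))) (r a) m S.card
      (hr a (Finset.mem_insert_self a S))
      (fun k => ih (fun i hi => hr i (Finset.mem_insert_of_mem hi)) k) k
    push_cast
    exact h

end prod

/-! ### The degree bound -/

section bound

variable (q : ℕ) [NeZero q] {k : Type*} [Field k] [CharZero k]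

/-- The coefficient of `φ(J)`, `J = j(t^q)`, in degree `-q deg φ` is the leading coefficient. -/
theorem coeff_evalAt_baseS (φ : Polynomial ℤ) :
    (evalAt (baseS k q) φ).coeff (-((q : ℤ) * φ.natDegree)) = (φ.leadingCoeff : k) := by
  have h1 : evalAt (baseS k q) φ = qExpand k q (evalAt (jqModC k) φ) := by
    rw [baseS, ← Fermat.Agent.H42.qExpand_comp_evalAt]
    rfl
  have h2 : evalAt (jqModC k) φ = Polynomial.aeval (jqModC k) (φ.map (Int.castRingHom k)) := by
    rw [Polynomial.aeval_def, Polynomial.eval₂_map]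
    have : (algebraMap k (LaurentSeries k)).comp (Int.castRingHom k)
        = Int.castRingHom (LaurentSeries k) := RingHom.ext_int _ _
    rw [this]
    rfl
  have hinj : Function.Injective (Int.castRingHom k) := RingHom.injective_int _
  rw [h1, show -((q : ℤ) * φ.natDegree) = (q : ℤ) * (-(φ.natDegree : ℤ)) by ring,
    qExpand_coeff_mul, h2, ← Polynomial.natDegree_map_eq_of_injective hinj,
    Fermat.Agent.H74.coeff_aeval_jq_neg_natDegree, Polynomial.leadingCoeff_map_of_injective hinj]
  rfl

omit [CharZero k] in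
/-- The coefficients of `Φ(J, Y)` have poles of order at most `q² (q + 1 - k)`. -/
theorem coeff_map_poleLE (ζ : kˣ) (D : HeckeDataOver q k ζ) (j : ℕ) :
    PoleLE (((q : ℤ) * q) * ((q : ℤ) + 1 - j)) (evalAt (baseS k q) (D.Φ.coeff j)) := by
  have hq : (1 : ℤ) ≤ q := by exact_mod_cast Nat.pos_of_ne_zero (NeZero.ne q)
  have hinf : PoleLE ((q : ℤ) * q) (rootInf k q) := by
    have h := ((poleLE_jqModC (R := k)).qExpand q).qExpand q
    rw [mul_one] at h
    exact h
  have hfin : ∀ b ∈ Finset.range q, PoleLE ((q : ℤ) * q) (rootFin (k := k) (ζ ^ b)) := by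
    intro b _
    refine ((poleLE_jqModC (R := k)).twist (ζ ^ b)).mono ?_
    nlinarith
  have h := coeff_X_sub_C_mul_poleLE (∏ b ∈ Finset.range q, (X - C (rootFin (k := k) (ζ ^ b))))
    (rootInf k q) ((q : ℤ) * q) q hinf
    (fun i => by
      have := coeff_prod_poleLE (Finset.range q) (fun b => rootFin (k := k) (ζ ^ b))
        ((q : ℤ) * q) hfin i
      rwa [Finset.card_range] at this) j
  rw [← D.Φ_factor, coeff_map] at h
  exact h

/-- **Degree bound**: `natDegree φ_k ≤ q (q + 1 - k)` for the modular polynomial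
`Φ = Σ_k φ_k Y^k` of prime level `q`. -/
theorem natDegree_coeff_le (ζ : kˣ) (D : HeckeDataOver q k ζ) (j : ℕ) (hj : j ≤ q + 1) :
    (D.Φ.coeff j).natDegree ≤ q * (q + 1 - j) := by
  by_cases h0 : D.Φ.coeff j = 0
  · rw [h0, natDegree_zero]
    exact Nat.zero_le _
  by_contra hcon
  rw [not_le] at hcon
  have hq : (0 : ℤ) < q := by exact_mod_cast Nat.pos_of_ne_zero (NeZero.ne q)
  have hcon' : (q : ℤ) * ((q : ℤ) + 1 - j) < ((D.Φ.coeff j).natDegree : ℤ) := by
    have := Int.ofNat_lt.mpr hcon
    rw [Nat.cast_mul, Nat.cast_sub hj] at this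
    push_cast at this
    exact this
  have hlt : -((q : ℤ) * (D.Φ.coeff j).natDegree) < -(((q : ℤ) * q) * ((q : ℤ) + 1 - j)) := by
    have := mul_lt_mul_of_pos_left hcon' hq
    linarith
  have h1 := (coeff_map_poleLE q ζ D j).coeff hlt
  rw [coeff_evalAt_baseS] at h1
  have h2 : (D.Φ.coeff j).leadingCoeff = 0 := by exact_mod_cast h1
  exact h0 (leadingCoeff_eq_zero.mp h2)

end bound

end Fermat.Agent.H46.SS
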